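import Mathlib.Data.ZMod.Basic
import Mathlib.Data.Nat.Prime.Pow
import Mathlib.Tactic.LinearCombination
import Mathlib.Tactic.IntervalCases
import Mathlib.Tactic.Linarith
import Mathlib.Tactic.NormNum
import Mathlib.Tactic.Ring
import Mathlib.Tactic.Positivity
import Mathlib.Data.Nat.Prime.Int
import Mathlib.RingTheory.Int.Basic

/-!
# The equation behind Ogg's list

The pairs of integers `(a, b)` with `b` and `a² - 4 b` powers of two up to sign, not both `4 ∣ a`
and `16 ∣ b`.
-/

set_option autoImplicit false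

namespace FA.OggTwo

/-- Up to sign a power of two. -/
def IsTwoPow (z : ℤ) : Prop := ∃ k : ℕ, z.natAbs = 2 ^ k

theorem IsTwoPow.of_dvd {y z : ℤ} (h : IsTwoPow z) (hyz : y ∣ z) : IsTwoPow y := by
  obtain ⟨k, hk⟩ := h
  obtain ⟨j, -, hj⟩ :=
    (Nat.dvd_prime_pow Nat.prime_two).1 (hk ▸ Int.natAbs_dvd_natAbs.2 hyz)
  exact ⟨j, hj⟩

theorem IsTwoPow.of_mul {c z : ℤ} (h : IsTwoPow (c * z)) : IsTwoPow z := h.of_dvd (dvd_mul_left z c)

theorem IsTwoPow.odd_cases {z : ℤ} (h : IsTwoPow z) (hz : ¬ 2 ∣ z) : z = 1 ∨ z = -1 := by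
  obtain ⟨k, hk⟩ := h
  rcases k with _ | k
  · rw [pow_zero] at hk
    omega
  · exfalso
    rw [pow_succ] at hk
    omega

theorem IsTwoPow.ne_zero {z : ℤ} (h : IsTwoPow z) : z ≠ 0 := by
  obtain ⟨k, hk⟩ := h
  intro e
  rw [e] at hk
  exact pow_ne_zero k two_ne_zero hk.symm

theorem sq_add_one {x : ℤ} (h : IsTwoPow (x ^ 2 + 1)) : x = 0 ∨ x = 1 ∨ x = -1 := by
  obtain ⟨k, hk⟩ := h
  have hpos : x ^ 2 + 1 = ((2 ^ k : ℕ) : ℤ) := by
    rw [← hk, Int.natCast_natAbs, abs_of_pos (by nlinarith [sq_nonneg x])]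
  rcases k with _ | _ | k
  · left
    simpa using hpos
  · right
    have hx : (x - 1) * (x + 1) = 0 := by push_cast at hpos; linear_combination hpos
    rcases mul_eq_zero.1 hx with h | h <;> omega
  · exfalso
    have h4 := congrArg (Int.cast : ℤ → ZMod 4) hpos
    push_cast [pow_succ] at h4
    rw [mul_assoc _ (2 : ZMod 4), show (2 : ZMod 4) * 2 = 0 from rfl, mul_zero] at h4
    exact (show ∀ z : ZMod 4, z * z + 1 ≠ 0 by decide) _ (by simpa using h4)

theorem sq_sub_one {x : ℤ} (h : IsTwoPow (x ^ 2 - 1)) : x = 0 ∨ x = 3 ∨ x = -3 := by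
  rw [show x ^ 2 - 1 = (x - 1) * (x + 1) by ring] at h
  obtain ⟨i, hi⟩ := h.of_dvd (dvd_mul_right (x - 1) (x + 1))
  obtain ⟨j, hj⟩ := h.of_dvd (dvd_mul_left (x + 1) (x - 1))
  have hi' : i = 0 ∨ i = 1 ∨ 4 ∣ 2 ^ i := by
    rcases i with _ | _ | i <;> simp [pow_succ, mul_assoc]
  have hj' : j = 0 ∨ j = 1 ∨ 4 ∣ 2 ^ j := by
    rcases j with _ | _ | j <;> simp [pow_succ, mul_assoc]
  have := Nat.two_pow_pos i
  have := Nat.two_pow_pos j
  rcases hi' with rfl | rfl | hi' <;> rcases hj' with rfl | rfl | hj' <;>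
    (try simp only [pow_zero, pow_one] at *) <;> omega

/-- The models of Ogg's list: `(a, b)` stands for `y² = x³ + a x² + b x`. -/
def models : List (ℤ × ℤ) :=
  [(0, 1), (0, -1), (0, 2), (0, -2), (0, 4), (0, -4), (0, 8), (0, -8),
   (2, -1), (-2, -1), (6, 1), (-6, 1), (2, 2), (-2, 2), (4, 2), (-4, 2),
   (4, -4), (-4, -4), (12, 4), (-12, 4), (4, 8), (-4, 8), (8, 8), (-8, 8)]

/-- **The solutions.** -/
theorem mem_of_isTwoPow {a b : ℤ} (hb : IsTwoPow b) (hD : IsTwoPow (a ^ 2 - 4 * b))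
    (hred : ¬ (4 ∣ a ∧ 16 ∣ b)) :
    (a, b) ∈ models ∨ (a, b) ∈ [((3 : ℤ), (2 : ℤ)), (-3, 2), (6, 8), (-6, 8)] := by
  by_cases ha : 2 ∣ a
  swap
  · -- `a` odd
    have hodd : ¬ 2 ∣ a ^ 2 - 4 * b := fun h => ha (Int.prime_two.dvd_of_dvd_pow (n := 2) (by
      simpa using dvd_add h (dvd_mul_of_dvd_left (show (2 : ℤ) ∣ 4 by norm_num) b)))
    rcases hD.odd_cases hodd with h | h
    · have h' : IsTwoPow (a ^ 2 - 1) := by
        rw [show a ^ 2 - 1 = 4 * b by linear_combination h]
        obtain ⟨k, hk⟩ := hb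
        exact ⟨k + 2, by rw [Int.natAbs_mul, hk, show (4 : ℤ).natAbs = 4 from rfl]; ring⟩
      rcases sq_sub_one h' with rfl | rfl | rfl
      · exact absurd (dvd_zero 2) ha
      · obtain rfl : b = 2 := by omega
        simp
      · obtain rfl : b = 2 := by omega
        simp
    · exfalso
      have h4 := congrArg (Int.cast : ℤ → ZMod 4) h
      push_cast at h4
      rw [show (4 : ZMod 4) = 0 from rfl, zero_mul, sub_zero] at h4
      exact (show ∀ z : ZMod 4, z ^ 2 ≠ -1 by decide) _ h4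
  obtain ⟨c, rfl⟩ := ha
  have hc : IsTwoPow (c ^ 2 - b) := IsTwoPow.of_mul (c := 4)
    (by rwa [show 4 * (c ^ 2 - b) = (2 * c) ^ 2 - 4 * b by ring])
  clear hD
  obtain ⟨n, hn⟩ := hb
  rcases n with _ | n
  · -- `b = ± 1`
    rw [pow_zero] at hn
    rcases Int.natAbs_eq_iff.1 hn with rfl | rfl <;> push_cast at *
    · rcases sq_sub_one hc with rfl | rfl | rfl <;> simp [models]
    · rw [sub_neg_eq_add] at hc
      rcases sq_add_one hc with rfl | rfl | rfl <;> simp [models]
  have hb2 : 2 ∣ b := Int.natAbs_dvd_natAbs.1 (by rw [hn]; exact dvd_pow_self 2 n.succ_ne_zero)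
  by_cases hc2 : 2 ∣ c
  swap
  · -- `a = 2 c`, `c` odd
    have hbT : IsTwoPow b := ⟨n + 1, hn⟩
    rcases hc.odd_cases (fun h => hc2 (Int.prime_two.dvd_of_dvd_pow (n := 2) (by
      simpa using dvd_add h hb2))) with h | h
    · rcases sq_sub_one (x := c) (by rwa [show c ^ 2 - 1 = b by linear_combination h]) with
        rfl | rfl | rfl
      · exact absurd (dvd_zero 2) hc2
      · obtain rfl : b = 8 := by omega
        simp
      · obtain rfl : b = 8 := by omega
        simp
    · rcases sq_add_one (x := c) (by rwa [show c ^ 2 + 1 = b by linear_combination h]) with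
        rfl | rfl | rfl
      · exact absurd (dvd_zero 2) hc2
      · obtain rfl : b = 2 := by omega
        simp [models]
      · obtain rfl : b = 2 := by omega
        simp [models]
  obtain ⟨d, rfl⟩ := hc2
  have hn3 : n < 3 := by
    by_contra hlt
    refine hred ⟨⟨d, by ring⟩, Int.natAbs_dvd_natAbs.1 ?_⟩
    rw [hn, show (16 : ℤ).natAbs = 2 ^ 4 from rfl]
    exact pow_dvd_pow 2 (by omega)
  clear hred
  interval_cases n <;> rcases Int.natAbs_eq_iff.1 hn with rfl | rfl <;> norm_num at *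
  · -- `b = 2`
    have h1 : IsTwoPow (2 * d ^ 2 - 1) := IsTwoPow.of_mul (c := 2)
      (by rwa [show 2 * (2 * d ^ 2 - 1) = (2 * d) ^ 2 - 2 by ring])
    rcases h1.odd_cases (fun h => by omega) with h | h
    · have h' : (d - 1) * (d + 1) = 0 := by linarith
      rcases mul_eq_zero.1 h' with h | h
      · obtain rfl : d = 1 := by omega
        simp [models]
      · obtain rfl : d = -1 := by omega
        simp [models]
    · obtain rfl : d = 0 := by
        have h' : d ^ 2 = 0 := by linarith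
        simpa using h'
      simp [models]
  · -- `b = -2`
    have h1 : IsTwoPow (2 * d ^ 2 + 1) := IsTwoPow.of_mul (c := 2)
      (by rwa [show 2 * (2 * d ^ 2 + 1) = (2 * d) ^ 2 + 2 by ring])
    rcases h1.odd_cases (fun h => by omega) with h | h
    · obtain rfl : d = 0 := by
        have h' : d ^ 2 = 0 := by linarith
        simpa using h'
      simp [models]
    · exfalso
      nlinarith [sq_nonneg d]
  · -- `b = 4`
    have h1 : IsTwoPow (d ^ 2 - 1) := IsTwoPow.of_mul (c := 4)
      (by rwa [show 4 * (d ^ 2 - 1) = (2 * d) ^ 2 - 4 by ring])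
    rcases sq_sub_one h1 with rfl | rfl | rfl <;> simp [models]
  · -- `b = -4`
    have h1 : IsTwoPow (d ^ 2 + 1) := IsTwoPow.of_mul (c := 4)
      (by rwa [show 4 * (d ^ 2 + 1) = (2 * d) ^ 2 + 4 by ring])
    rcases sq_add_one h1 with rfl | rfl | rfl <;> simp [models]
  · -- `b = 8`
    by_cases hd : 2 ∣ d
    · obtain ⟨e, rfl⟩ := hd
      have h1 : IsTwoPow (2 * e ^ 2 - 1) := IsTwoPow.of_mul (c := 8)
        (by rwa [show 8 * (2 * e ^ 2 - 1) = (2 * (2 * e)) ^ 2 - 8 by ring])
      rcases h1.odd_cases (fun h => by omega) with h | h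
      · have h' : (e - 1) * (e + 1) = 0 := by linarith
        rcases mul_eq_zero.1 h' with h | h
        · obtain rfl : e = 1 := by omega
          simp [models]
        · obtain rfl : e = -1 := by omega
          simp [models]
      · obtain rfl : e = 0 := by
          have h' : e ^ 2 = 0 := by linarith
          simpa using h'
        simp [models]
    · have h1 : IsTwoPow (d ^ 2 - 2) := IsTwoPow.of_mul (c := 4)
        (by rwa [show 4 * (d ^ 2 - 2) = (2 * d) ^ 2 - 8 by ring])
      rcases h1.odd_cases (fun h => hd (Int.prime_two.dvd_of_dvd_pow (n := 2) (by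
        simpa using dvd_add h (dvd_refl (2 : ℤ))))) with h | h
      · exfalso
        rcases lt_or_ge (d ^ 2) 2 with h' | h'
        · omega
        · have h3 : d ^ 2 = 3 := by linarith
          have : -2 < d ∧ d < 2 := ⟨by nlinarith, by nlinarith⟩
          obtain rfl | rfl | rfl : d = -1 ∨ d = 0 ∨ d = 1 := by omega
          all_goals norm_num at h3
      · have h' : (d - 1) * (d + 1) = 0 := by linarith
        rcases mul_eq_zero.1 h' with h | h
        · obtain rfl : d = 1 := by omega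
          simp [models]
        · obtain rfl : d = -1 := by omega
          simp [models]
  · -- `b = -8`
    by_cases hd : 2 ∣ d
    · obtain ⟨e, rfl⟩ := hd
      have h1 : IsTwoPow (2 * e ^ 2 + 1) := IsTwoPow.of_mul (c := 8)
        (by rwa [show 8 * (2 * e ^ 2 + 1) = (2 * (2 * e)) ^ 2 + 8 by ring])
      rcases h1.odd_cases (fun h => by omega) with h | h
      · obtain rfl : e = 0 := by
          have h' : e ^ 2 = 0 := by linarith
          simpa using h'
        simp [models]
      · exfalso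
        nlinarith [sq_nonneg e]
    · exfalso
      have h1 : IsTwoPow (d ^ 2 + 2) := IsTwoPow.of_mul (c := 4)
        (by rwa [show 4 * (d ^ 2 + 2) = (2 * d) ^ 2 + 8 by ring])
      rcases h1.odd_cases (fun h => hd (Int.prime_two.dvd_of_dvd_pow (n := 2) (by
        simpa using dvd_sub h (dvd_refl (2 : ℤ))))) with h | h <;> nlinarith [sq_nonneg d]

end FA.OggTwo
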