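import Fermat.Agent.OggTwo.Diophantine
import Fermat.Agent.Root.SummaryTateModTwo
import Mathlib.NumberTheory.Padics.PadicNorm

/-!
# Curves with good reduction outside two as `y² = x³ + a x² + b x`

A rational point of order two gives such an equation, and good reduction at an odd prime `q` makes
`b` and `a² - 4 b` units at `q` after scaling.
-/

set_option autoImplicit false
set_option linter.unusedSectionVars false
set_option linter.style.haveILetI false

noncomputable section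

open WeierstrassCurve

namespace FA.OggTwo

/-- `y² = x³ + a x² + b x`. -/
def twoTorsionModel {R : Type*} [CommRing R] (a b : R) : WeierstrassCurve R := ⟨0, a, 0, b, 0⟩

variable {R : Type*} [CommRing R] (a b : R)

theorem b₂_twoTorsionModel : (twoTorsionModel a b).b₂ = 4 * a := by
  simp [twoTorsionModel, WeierstrassCurve.b₂]

theorem b₄_twoTorsionModel : (twoTorsionModel a b).b₄ = 2 * b := by
  simp [twoTorsionModel, WeierstrassCurve.b₄]

theorem b₆_twoTorsionModel : (twoTorsionModel a b).b₆ = 0 := by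
  simp [twoTorsionModel, WeierstrassCurve.b₆]

theorem Δ_twoTorsionModel : (twoTorsionModel a b).Δ = 16 * b ^ 2 * (a ^ 2 - 4 * b) := by
  simp [twoTorsionModel, WeierstrassCurve.Δ, WeierstrassCurve.b₂, WeierstrassCurve.b₄,
    WeierstrassCurve.b₆, WeierstrassCurve.b₈]
  ring

theorem c₄_twoTorsionModel : (twoTorsionModel a b).c₄ = 16 * (a ^ 2 - 3 * b) := by
  rw [WeierstrassCurve.c₄, b₂_twoTorsionModel, b₄_twoTorsionModel]
  ring

theorem c₆_twoTorsionModel : (twoTorsionModel a b).c₆ = -32 * (2 * a ^ 3 - 9 * a * b) := by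
  rw [WeierstrassCurve.c₆, b₂_twoTorsionModel, b₄_twoTorsionModel, b₆_twoTorsionModel]
  ring

variable {E : WeierstrassCurve ℚ}

/-- Scaling gives an integral model. -/
theorem exists_integral_twoTorsionModel {C : VariableChange ℚ} {a b : ℚ}
    (hC : C • E = twoTorsionModel a b) :
    ∃ A B : ℤ, (twoTorsionModel A B).IsIntegralModelOf E := by
  set t : ℚ := (a.den : ℚ) * b.den with ht
  have ht0 : t ≠ 0 := by simp [ht, Rat.den_ne_zero]
  refine ⟨a.num * a.den * (b.den : ℤ) ^ 2, b.num * (a.den : ℤ) ^ 4 * (b.den : ℤ) ^ 3,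
    ⟨(Units.mk0 t ht0)⁻¹, 0, 0, 0⟩ * C, ?_⟩
  have ha := Rat.mul_den_eq_num a
  have hb := Rat.mul_den_eq_num b
  rw [mul_smul, hC]
  ext <;> simp [twoTorsionModel, variableChange_def, ht]
  · linear_combination (a.den : ℚ) * (b.den : ℚ) ^ 2 * ha
  · linear_combination (a.den : ℚ) ^ 4 * (b.den : ℚ) ^ 3 * hb

/-- A rational point of order two gives the shape `y² = x³ + a x² + b x`. -/
theorem exists_twoTorsionModel [E.IsElliptic] {P : E.toAffine.Point} (hP : P ≠ 0)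
    (h2 : 2 • P = 0) : ∃ A B : ℤ, (twoTorsionModel A B).IsIntegralModelOf E := by
  classical
  rcases P with _ | ⟨x, y, h⟩
  · exact absurd rfl hP
  rw [two_nsmul, add_eq_zero_iff_eq_neg, Affine.Point.neg_some, Affine.Point.some.injEq] at h2
  have hy : y = -y - E.a₁ * x - E.a₃ := h2.2
  have heq := h.1
  rw [Affine.equation_iff] at heq
  refine exists_integral_twoTorsionModel (E := E) (C := ⟨1, x, -E.a₁ / 2, y⟩)
    (a := E.a₂ + 3 * x + E.a₁ ^ 2 / 4)
    (b := E.a₄ + 2 * x * E.a₂ + E.a₁ * E.a₃ / 2 + E.a₁ ^ 2 * x / 2 + 3 * x ^ 2) ?_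
  ext <;> simp [twoTorsionModel, variableChange_def]
  · ring
  · ring
  · linear_combination hy
  · ring
  · linear_combination -heq

open padicNorm

/-- **At an odd prime of good reduction** `b` and `a² - 4 b` are units after scaling by `u`. -/
theorem norm_of_good [E.IsElliptic] {A B : ℤ} (hM : (twoTorsionModel A B).IsIntegralModelOf E)
    {q : ℕ} [Fact q.Prime] (hq : q ≠ 2)
    (hgood : ∃ C : VariableChange ℚ_[q], HasGoodReduction ℤ_[q] (C • E.map (algebraMap ℚ ℚ_[q]))) :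
    ∃ N : ℚ, padicNorm q A ≤ N ^ 2 ∧ padicNorm q B = N ^ 4 ∧
      padicNorm q ((A ^ 2 - 4 * B : ℤ) : ℚ) = N ^ 4 ∧ ∃ v : ℤ, N = (q : ℚ) ^ v := by
  obtain ⟨W, ⟨C₁, hC₁⟩, hd⟩ := FA.CM.Deuring.exists_model_not_dvd E hgood
  obtain ⟨C₀, hC₀⟩ := hM
  set D := C₁ * C₀⁻¹
  have hD : D • (twoTorsionModel A B).map (Int.castRingHom ℚ) = W.map (Int.castRingHom ℚ) := by
    rw [mul_smul, ← hC₀, inv_smul_smul, hC₁]
  have e2 := congrArg WeierstrassCurve.b₂ hD
  have e4 := congrArg WeierstrassCurve.b₄ hD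
  have e6 := congrArg WeierstrassCurve.b₆ hD
  have eΔ := congrArg WeierstrassCurve.Δ hD
  rw [variableChange_b₂] at e2
  rw [variableChange_b₄] at e4
  rw [variableChange_b₆] at e6
  rw [variableChange_Δ] at eΔ
  simp only [WeierstrassCurve.map_b₂, WeierstrassCurve.map_b₄, WeierstrassCurve.map_b₆,
    WeierstrassCurve.map_Δ, b₂_twoTorsionModel, b₄_twoTorsionModel, b₆_twoTorsionModel,
    Δ_twoTorsionModel, eq_intCast, Units.val_inv_eq_inv_val] at e2 e4 e6 eΔ
  push_cast at e2 e4 e6 eΔ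
  set u : ℚ := (D.u : ℚ)
  have hu : u ≠ 0 := D.u.ne_zero
  set r : ℚ := D.r
  set x : ℚ := -r / u ^ 2 with hx
  have hroot : 4 * x ^ 3 + (W.b₂ * x ^ 2 + 2 * (W.b₄ * x) + W.b₆) = 0 := by
    rw [← e2, ← e4, ← e6, hx]
    field_simp
    ring
  have hA : (A : ℚ) = u * u * ((W.b₂ + 12 * x) / 4) := by
    rw [← e2, hx]; field_simp; ring
  have hB : (B : ℚ) = (u * u) * (u * u) * ((W.b₄ + (W.b₂ * x + 6 * x * x)) / 2) := by
    rw [← e4, ← e2, hx]; field_simp; ring
  have hne : ∀ m : ℕ, m.Prime → m ≠ q → padicNorm q (m : ℚ) = 1 := fun m hm hmq =>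
    (nat_eq_one_iff m).2 fun h => hmq ((Nat.prime_dvd_prime_iff_eq Fact.out hm).1 h).symm
  have hq2 : padicNorm q (2 : ℚ) = 1 := by simpa using hne 2 Nat.prime_two hq.symm
  have hq4 : padicNorm q (4 : ℚ) = 1 := by
    rw [show (4 : ℚ) = 2 * 2 by norm_num, padicNorm.mul, hq2, one_mul]
  have hint : ∀ m : ℤ, padicNorm q (m : ℚ) ≤ 1 := padicNorm.of_int
  have hx1 : padicNorm q x ≤ 1 := by
    by_contra! hlt
    set X := padicNorm q x
    have hX : 0 ≤ X := padicNorm.nonneg x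
    have h := congrArg (padicNorm q) (eq_neg_of_add_eq_zero_left hroot)
    rw [padicNorm.neg, padicNorm.mul, hq4, one_mul, show x ^ 3 = x * (x * x) by ring,
      padicNorm.mul, padicNorm.mul] at h
    have hle : padicNorm q (W.b₂ * x ^ 2 + 2 * (W.b₄ * x) + W.b₆) ≤ X * X := by
      refine padicNorm.nonarchimedean.trans (max_le (padicNorm.nonarchimedean.trans
        (max_le ?_ ?_)) ((hint _).trans (one_le_mul_of_one_le_of_one_le hlt.le hlt.le)))
      · rw [padicNorm.mul, sq, padicNorm.mul]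
        exact mul_le_of_le_one_left (mul_nonneg hX hX) (hint _)
      · rw [padicNorm.mul, hq2, one_mul, padicNorm.mul]
        exact (mul_le_of_le_one_left hX (hint _)).trans (le_mul_of_one_le_left hX hlt.le)
    nlinarith [mul_pos (lt_trans zero_lt_one hlt) (lt_trans zero_lt_one hlt)]
  set N := padicNorm q u
  have hN : 0 ≤ N := padicNorm.nonneg u
  have hNpos : 0 < N := lt_of_le_of_ne hN (padicNorm.nonzero hu).symm
  have h12 : ∀ m : ℤ, padicNorm q ((m : ℚ) * x) ≤ 1 := fun m => by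
    rw [padicNorm.mul]
    exact mul_le_one₀ (hint m) (padicNorm.nonneg x) hx1
  have hA' : padicNorm q A ≤ N ^ 2 := by
    rw [hA, padicNorm.mul, padicNorm.mul, padicNorm.div, hq4, div_one, sq]
    exact mul_le_of_le_one_right (mul_nonneg hN hN)
      (padicNorm.nonarchimedean.trans (max_le (hint _) (by simpa using h12 12)))
  have hB' : padicNorm q B ≤ N ^ 4 := by
    rw [hB, padicNorm.mul, padicNorm.mul, padicNorm.mul, padicNorm.div, hq2, div_one,
      show N ^ 4 = N * N * (N * N) by ring]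
    refine mul_le_of_le_one_right (by positivity) (padicNorm.nonarchimedean.trans
      (max_le (hint _) (padicNorm.nonarchimedean.trans (max_le (h12 _) ?_))))
    rw [padicNorm.mul, padicNorm.mul]
    exact mul_le_one₀ (mul_le_one₀ (by simpa using hint 6) (padicNorm.nonneg x) hx1)
      (padicNorm.nonneg x) hx1
  have hD' : padicNorm q ((A ^ 2 - 4 * B : ℤ) : ℚ) ≤ N ^ 4 := by
    push_cast
    refine padicNorm.sub.trans (max_le ?_ ?_)
    · rw [sq, padicNorm.mul, show N ^ 4 = N ^ 2 * N ^ 2 by ring]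
      exact mul_le_mul hA' hA' (padicNorm.nonneg _) (sq_nonneg N)
    · rw [padicNorm.mul, hq4, one_mul]
      exact hB'
  have hprod : padicNorm q B * padicNorm q B * padicNorm q ((A ^ 2 - 4 * B : ℤ) : ℚ) =
      N ^ 4 * N ^ 4 * N ^ 4 := by
    have h := congrArg (padicNorm q) eΔ
    rw [(int_eq_one_iff W.Δ).2 hd, show u⁻¹ ^ 12 * (16 * (B : ℚ) ^ 2 * ((A : ℚ) ^ 2 - 4 * B)) =
      (2 * 2 * 2 * 2 * (B * B * ((A ^ 2 - 4 * B : ℤ) : ℚ))) /
        (u * u * u * u * (u * u * u * u) * (u * u * u * u)) by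
      push_cast; field_simp; ring] at h
    simp only [padicNorm.div, padicNorm.mul, hq2, one_mul] at h
    rw [div_eq_one_iff_eq (by positivity)] at h
    rw [h]
    ring
  have h4 : (0 : ℚ) < N ^ 4 := by positivity
  have hB0 : (0 : ℚ) ≤ padicNorm q (B : ℚ) := padicNorm.nonneg _
  have hD0 : (0 : ℚ) ≤ padicNorm q ((A ^ 2 - 4 * B : ℤ) : ℚ) := padicNorm.nonneg _
  have hBeq : padicNorm q B = N ^ 4 := by
    rcases lt_or_eq_of_le hB' with hlt | heq
    · exfalso
      have : padicNorm q B * padicNorm q B * padicNorm q ((A ^ 2 - 4 * B : ℤ) : ℚ) <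
          N ^ 4 * N ^ 4 * N ^ 4 :=
        lt_of_le_of_lt (mul_le_mul_of_nonneg_left hD' (mul_nonneg hB0 hB0))
          (mul_lt_mul_of_pos_right (mul_lt_mul'' hlt hlt hB0 hB0) h4)
      exact this.ne hprod
    · exact heq
  refine ⟨N, hA', hBeq, ?_, ?_⟩
  · rw [hBeq] at hprod
    exact mul_left_cancel₀ (mul_ne_zero h4.ne' h4.ne') hprod
  · obtain ⟨z, hz⟩ := padicNorm.values_discrete (p := q) hu
    exact ⟨-z, hz⟩

theorem unit_or_dvd [E.IsElliptic] {A B : ℤ} (hM : (twoTorsionModel A B).IsIntegralModelOf E)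
    {q : ℕ} [Fact q.Prime] (hq : q ≠ 2)
    (hgood : ∃ C : VariableChange ℚ_[q], HasGoodReduction ℤ_[q] (C • E.map (algebraMap ℚ ℚ_[q]))) :
    (¬ (q : ℤ) ∣ B ∧ ¬ (q : ℤ) ∣ A ^ 2 - 4 * B) ∨ ((q : ℤ) ^ 2 ∣ A ∧ (q : ℤ) ^ 4 ∣ B) := by
  obtain ⟨N, hA, hB, hD, v, rfl⟩ := norm_of_good hM hq hgood
  have hq1 : (1 : ℚ) < q := by exact_mod_cast (Fact.out : q.Prime).one_lt
  by_cases hd : (q : ℤ) ∣ B
  · right
    have hv : v ≤ -1 := by
      have h := (int_lt_one_iff B).2 hd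
      rw [hB] at h
      by_contra hlt
      exact absurd h (not_lt.2 (one_le_pow₀ (one_le_zpow₀ hq1.le (by omega))))
    constructor <;> rw [← Nat.cast_pow, dvd_iff_norm_le]
    · refine hA.trans ?_
      rw [← zpow_natCast, ← zpow_mul]
      exact zpow_le_zpow_right₀ hq1.le (by omega)
    · rw [hB, ← zpow_natCast, ← zpow_mul]
      exact zpow_le_zpow_right₀ hq1.le (by omega)
  · left
    refine ⟨hd, (int_eq_one_iff _).1 ?_⟩
    rw [hD, ← hB]
    exact (int_eq_one_iff B).2 hd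

/-- Dividing out `t`. -/
theorem scale_twoTorsionModel {t A B : ℤ} (ht : t ≠ 0)
    (h : (twoTorsionModel (t ^ 2 * A) (t ^ 4 * B)).IsIntegralModelOf E) :
    (twoTorsionModel A B).IsIntegralModelOf E := by
  obtain ⟨C, hC⟩ := h
  refine ⟨⟨Units.mk0 (t : ℚ) (by exact_mod_cast ht), 0, 0, 0⟩ * C, ?_⟩
  have : (t : ℚ) ≠ 0 := by exact_mod_cast ht
  rw [mul_smul, hC]
  ext <;> simp [twoTorsionModel, variableChange_def] <;> field_simp

/-- A reduced model: `b` and `a² - 4 b` are powers of two up to sign. -/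
theorem exists_reduced [E.IsElliptic]
    (hgood : ∀ q : ℕ, [Fact q.Prime] → q ≠ 2 →
      ∃ C : VariableChange ℚ_[q], HasGoodReduction ℤ_[q] (C • E.map (algebraMap ℚ ℚ_[q]))) :
    ∀ (n : ℕ) (A B : ℤ), B.natAbs = n → (twoTorsionModel A B).IsIntegralModelOf E →
      ∃ a b : ℤ, (twoTorsionModel a b).IsIntegralModelOf E ∧ IsTwoPow b ∧
        IsTwoPow (a ^ 2 - 4 * b) ∧ ¬ (4 ∣ a ∧ 16 ∣ b) := by
  intro n
  induction n using Nat.strong_induction_on with
  | _ n ih =>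
    intro A B hn hM
    have hΔ := FA.Frob.Δ_ne_zero_of_model hM
    rw [Δ_twoTorsionModel] at hΔ
    obtain ⟨hB, hD⟩ : B ≠ 0 ∧ A ^ 2 - 4 * B ≠ 0 :=
      ⟨fun e => hΔ (by simp [e]), fun e => hΔ (by rw [e, mul_zero])⟩
    have hstep : ∀ t : ℕ, 2 ≤ t → (t : ℤ) ^ 2 ∣ A → (t : ℤ) ^ 4 ∣ B →
        ∃ a b : ℤ, (twoTorsionModel a b).IsIntegralModelOf E ∧ IsTwoPow b ∧
          IsTwoPow (a ^ 2 - 4 * b) ∧ ¬ (4 ∣ a ∧ 16 ∣ b) := by
      intro t ht ⟨A', hA'⟩ ⟨B', hB'⟩
      subst hA' hB'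
      refine ih B'.natAbs ?_ A' B' rfl
        (scale_twoTorsionModel (by exact_mod_cast (by omega : t ≠ 0)) hM)
      rw [← hn, Int.natAbs_mul, Int.natAbs_pow, Int.natAbs_natCast]
      exact lt_mul_of_one_lt_left (Int.natAbs_pos.2 (right_ne_zero_of_mul hB))
        (Nat.one_lt_pow four_ne_zero ht)
    by_cases h2 : 4 ∣ A ∧ 16 ∣ B
    · exact hstep 2 le_rfl (by simpa using h2.1) (by simpa using h2.2)
    by_cases hodd : ∃ q : ℕ, q.Prime ∧ q ≠ 2 ∧ ((q : ℤ) ∣ B ∨ (q : ℤ) ∣ A ^ 2 - 4 * B)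
    · obtain ⟨q, hq, hq2, hor⟩ := hodd
      have := Fact.mk hq
      rcases unit_or_dvd hM hq2 (hgood q hq2) with ⟨h1, h1'⟩ | ⟨h1, h1'⟩
      · exact absurd hor (not_or.2 ⟨h1, h1'⟩)
      · exact hstep q hq.two_le h1 h1'
    push Not at hodd
    have hpow : ∀ z : ℤ, z ≠ 0 → (∀ q : ℕ, q.Prime → q ≠ 2 → ¬ (q : ℤ) ∣ z) → IsTwoPow z :=
      fun z hz h => ⟨_, Nat.eq_prime_pow_of_unique_prime_dvd (Int.natAbs_ne_zero.2 hz)
        fun {d} hd hdz => by_contra fun hne => h d hd hne (Int.natCast_dvd.2 hdz)⟩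
    exact ⟨A, B, hM, hpow B hB fun q hq h => (hodd q hq h).1,
      hpow _ hD fun q hq h => (hodd q hq h).2, h2⟩

end FA.OggTwo

end
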